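/-
GATE-K / K1 (V1) (helper45): the Gauss fraction property for ANY field of Laurent series generated
by series whose coefficients lie in a subring `R₀` of `L` which is finitely generated as a
`ℤ`-module (e.g. `ℤ[ζ_N]`).

`hasGaussFrac_adjoin : Val.HasGaussFrac A (IntermediateField.adjoin L G)` for EVERY valuation
subring `A` of `L`.  Hence `Val.redData A (adjoin L G) _` (Gauss valuation ring, coefficientwise
reduction, residue field inside `k((t))`) exists for all these fields — in particular for the image
of the modular function field `F_N` under each of the `ψ(N)` cusp embeddings of T24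
(generalises helper42's `GU.gaussFrac`, same proof).
-/
import Fermat.Agent.GJ.J1.Val.GaussRedData

set_option autoImplicit false

noncomputable section

namespace Fermat.Agent.GK.Val

open HahnSeries ModularCurve Fermat.Agent.GJ.J1.Val

variable {L : Type*} [Field L]

/-- Laurent series all of whose coefficients lie in the subring `R₀`. -/
def coeffSubring (R₀ : Subring L) : Subring (LaurentSeries L) where
  carrier := {x | ∀ n : ℤ, x.coeff n ∈ R₀}
  mul_mem' := by
    intro x y hx hy n
    rw [HahnSeries.coeff_mul]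
    exact sum_mem fun ij _ => mul_mem (hx _) (hy _)
  one_mem' := by
    intro n
    have h : (1 : LaurentSeries L) = HahnSeries.single 0 1 := rfl
    rw [h, HahnSeries.coeff_single]
    split_ifs
    · exact one_mem _
    · exact zero_mem _
  add_mem' := by
    intro x y hx hy n
    rw [HahnSeries.coeff_add]
    exact add_mem (hx n) (hy n)
  zero_mem' := by
    intro n
    rw [HahnSeries.coeff_zero]
    exact zero_mem _
  neg_mem' := by
    intro x hx n
    rw [HahnSeries.coeff_neg]
    exact neg_mem (hx n)

theorem mem_coeffSubring {R₀ : Subring L} {x : LaurentSeries L} :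
    x ∈ coeffSubring R₀ ↔ ∀ n : ℤ, x.coeff n ∈ R₀ := Iff.rfl

/-- the coefficients of a polynomial expression (coefficients in `L`) in series with coefficients
in `R₀ ⊆ span_ℤ B₀` lie in the `ℤ`-span of the finite set `{c * b}`. -/
theorem coeff_aeval_mem_span {σ : Type*} (R₀ : Subring L) (B₀ : Set L)
    (hB₀ : ∀ x ∈ R₀, x ∈ Submodule.span ℤ B₀)
    (M : σ → LaurentSeries L) (hM : ∀ i, M i ∈ coeffSubring R₀) (P : MvPolynomial σ L) (n : ℤ) :
    (MvPolynomial.aeval M P).coeff n ∈
      Submodule.span ℤ (Set.image2 (· * ·) (P.coeff '' (P.support : Set (σ →₀ ℕ))) B₀) := by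
  classical
  rw [MvPolynomial.aeval_def, MvPolynomial.eval₂_eq]
  revert n
  refine Finset.sum_induction _
    (fun x : LaurentSeries L => ∀ n : ℤ, x.coeff n ∈
      Submodule.span ℤ (Set.image2 (· * ·) (P.coeff '' (P.support : Set (σ →₀ ℕ))) B₀)) ?_ ?_ ?_
  · intro x y hx hy n
    rw [HahnSeries.coeff_add]
    exact Submodule.add_mem _ (hx n) (hy n)
  · intro n
    simp
  · intro d hd n
    have h1 : (∏ i ∈ d.support, M i ^ d i) ∈ coeffSubring R₀ :=
      prod_mem fun i _ => pow_mem (hM i) _
    rw [algebraMap_laurentSeries_eq_single, HahnSeries.coeff_single_zero_mul]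
    have h2 := hB₀ _ (h1 n)
    -- multiply the span by the constant `P.coeff d`
    have h3 : ∀ y ∈ Submodule.span ℤ B₀, P.coeff d * y ∈
        Submodule.span ℤ (Set.image2 (· * ·) (P.coeff '' (P.support : Set (σ →₀ ℕ))) B₀) := by
      intro y hy
      induction hy using Submodule.span_induction with
      | mem b hb =>
          exact Submodule.subset_span ⟨P.coeff d, ⟨d, Finset.mem_coe.mpr hd, rfl⟩, b, hb, rfl⟩
      | zero => simp
      | add x y _ _ hx hy => rw [mul_add]; exact Submodule.add_mem _ hx hy
      | smul z x _ hx =>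
          rw [mul_smul_comm]
          exact Submodule.smul_mem _ _ hx
    exact h3 _ h2

variable (A : ValuationSubring L)

/-- **Gauss normalisation of a polynomial expression** in series with coefficients in a subring
that is finitely generated as a `ℤ`-module. -/
theorem exists_gauss_normalisation_aeval {σ : Type*} (R₀ : Subring L) (B₀ : Set L)
    (hB₀fin : B₀.Finite) (hB₀ : ∀ x ∈ R₀, x ∈ Submodule.span ℤ B₀)
    (M : σ → LaurentSeries L) (hM : ∀ i, M i ∈ coeffSubring R₀) (P : MvPolynomial σ L)
    (hP : MvPolynomial.aeval M P ≠ 0) :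
    ∃ (c : L) (g : LaurentSeries A), c ≠ 0 ∧
      MvPolynomial.aeval M P = HahnSeries.C c * coeffMap A.subtype g ∧
      ∃ n₀ : ℤ, g.coeff n₀ = 1 := by
  refine Fermat.Agent.GJ.GU.exists_gauss_normalisation A _ hP
    (Set.image2 (· * ·) (P.coeff '' (P.support : Set (σ →₀ ℕ))) B₀)
    (Set.Finite.image2 _ ((Finset.finite_toSet _).image _) hB₀fin) (fun n => ?_)
  exact coeff_aeval_mem_span R₀ B₀ hB₀ M hM P n

/-- **The Gauss fraction property** of a field generated over `L` by series with coefficients in a
subring `R₀` of `L` that is finitely generated as a `ℤ`-module; for EVERY valuation subring `A`. -/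
theorem hasGaussFrac_adjoin (R₀ : Subring L) (B₀ : Set L) (hB₀fin : B₀.Finite)
    (hB₀ : ∀ x ∈ R₀, x ∈ Submodule.span ℤ B₀)
    (G : Set (LaurentSeries L)) (hG : ∀ g ∈ G, g ∈ coeffSubring R₀) :
    HasGaussFrac A (IntermediateField.adjoin L G) := by
  intro u hu hu0
  obtain ⟨P, Q, rfl⟩ := (IntermediateField.mem_adjoin_iff L u).mp hu
  set M : G → LaurentSeries L := Subtype.val with hMdef
  have hM : ∀ i : G, M i ∈ coeffSubring R₀ := fun i => hG i.1 i.2
  have hQ : MvPolynomial.aeval M Q ≠ 0 := by
    intro h; apply hu0; rw [h, div_zero]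
  have hP : MvPolynomial.aeval M P ≠ 0 := by
    intro h; apply hu0; rw [h, zero_div]
  obtain ⟨cP, a, hcP, haP, ha1⟩ := exists_gauss_normalisation_aeval A R₀ B₀ hB₀fin hB₀ M hM P hP
  obtain ⟨cQ, b, hcQ, hbQ, hb1⟩ := exists_gauss_normalisation_aeval A R₀ B₀ hB₀fin hB₀ M hM Q hQ
  have hCP : (HahnSeries.C cP : LaurentSeries L) ≠ 0 := HahnSeries.C_ne_zero hcP
  have hCQ : (HahnSeries.C cQ : LaurentSeries L) ≠ 0 := HahnSeries.C_ne_zero hcQ
  have hCmem : ∀ c : L, (HahnSeries.C c : LaurentSeries L) ∈ IntermediateField.adjoin L G := by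
    intro c
    have : (HahnSeries.C c : LaurentSeries L) = algebraMap L (LaurentSeries L) c := by
      rw [algebraMap_laurentSeries_eq_single]; rfl
    rw [this]
    exact (IntermediateField.adjoin L G).algebraMap_mem c
  have haeval : ∀ R : MvPolynomial G L, MvPolynomial.aeval M R ∈ IntermediateField.adjoin L G := by
    intro R
    have h1 : MvPolynomial.aeval M R ∈ Algebra.adjoin L (Set.range M) := by
      rw [Algebra.adjoin_range_eq_range_aeval]
      exact ⟨R, rfl⟩
    have h2 : Set.range M = G := by rw [hMdef, Subtype.range_coe]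
    rw [h2] at h1
    exact IntermediateField.algebra_adjoin_le_adjoin L G h1
  have hamem : coeffMap A.subtype a ∈ IntermediateField.adjoin L G := by
    have h1 : coeffMap A.subtype a = (HahnSeries.C cP)⁻¹ * MvPolynomial.aeval M P := by
      rw [haP, ← mul_assoc, inv_mul_cancel₀ hCP, one_mul]
    rw [h1]
    exact mul_mem (inv_mem (hCmem cP)) (haeval P)
  have hbmem : coeffMap A.subtype b ∈ IntermediateField.adjoin L G := by
    have h1 : coeffMap A.subtype b = (HahnSeries.C cQ)⁻¹ * MvPolynomial.aeval M Q := by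
      rw [hbQ, ← mul_assoc, inv_mul_cancel₀ hCQ, one_mul]
    rw [h1]
    exact mul_mem (inv_mem (hCmem cQ)) (haeval Q)
  have hb0 : coeffMap A.subtype b ≠ 0 := by
    intro h; apply hQ; rw [hbQ, h, mul_zero]
  refine ⟨cP / cQ, a, b, div_ne_zero hcP hcQ, hamem, hbmem,
    Fermat.Agent.GJ.GU.coeffMap_residue_ne_zero A ha1,
    Fermat.Agent.GJ.GU.coeffMap_residue_ne_zero A hb1, ?_⟩
  have hsingle : (HahnSeries.single 0 (cP / cQ) : LaurentSeries L) = HahnSeries.C (cP / cQ) := by
    rw [HahnSeries.C_apply]
  rw [hsingle, haP, hbQ, map_div₀]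
  show _ * emb A b = _ * emb A a
  rw [emb]
  field_simp

end Fermat.Agent.GK.Val
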