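/-
GATE-K/L PREP (helper45): the Gauss valuation at the cusp `∞` of `L(X₀(N)) = L(j(q^d) : d ∣ N)`
over an ARBITRARY base field `L` and an ARBITRARY valuation subring `A` of `L`
(e.g. `L = ℚ̄^{I_q}`, the unramified base of GATE-L; or `L` a number field; any characteristic).

* `hasGaussFrac_fullC L A N : Val.HasGaussFrac A (modularFunctionFieldFullC L N)`
  (from `GK/Val/GaussFracGen.hasGaussFrac_adjoin`: the generators have integer coefficients);
* `redDataC L A N : RedData L (modularFunctionFieldFullC L N) k (FresC L A N)`, `RwC`, `FresC`;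
* `genC_mem_RwC`, `coe_red_genC` : `red (j(q^d)) = j~(Q^d)`;  `fullC_le_FresC`;  `isGaussChart_jC`;
* `L = ℚ̄`: `modularFunctionFieldBar N = modularFunctionFieldFullC ℚ̄ N` and `RwC = RwBar` elementwise.
-/
import Fermat.Agent.GK.Val.GaussFracGen
import Fermat.Agent.S24_helper62.FieldGen

set_option autoImplicit false

noncomputable section

namespace Fermat.Agent.GK.Val.GaussBase

open HahnSeries ModularCurve IsLocalRing
open Fermat.Agent.GJ.J1 Fermat.Agent.GJ.J1.Val

variable (L : Type*) [Field L] (A : ValuationSubring L) (N : ℕ)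

local notation "𝕜" => ResidueField A

/-- the coefficients of `j(q^d)` are integers -/
theorem qExpand_jqModC_mem (d : ℕ) [NeZero d] :
    qExpand L d (jqModC L) ∈ Fermat.Agent.GK.Val.coeffSubring (Int.castRingHom L).range := by
  intro n
  by_cases hn : (d : ℤ) ∣ n
  · obtain ⟨m, rfl⟩ := hn
    rw [qExpand_coeff_mul, coeff_jqModC_eq_intCast]
    exact ⟨_, rfl⟩
  · rw [qExpand_coeff_of_not_dvd d _ hn]
    exact zero_mem _

/-- **Gauss fractions over any base field** -/
theorem hasGaussFrac_fullC : HasGaussFrac A (modularFunctionFieldFullC L N) := by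
  unfold modularFunctionFieldFullC
  refine Fermat.Agent.GK.Val.hasGaussFrac_adjoin A (Int.castRingHom L).range {1}
    (Set.finite_singleton 1) ?_ _ ?_
  · rintro x ⟨n, rfl⟩
    have h : ((Int.castRingHom L) n : L) = n • (1 : L) := by simp
    rw [h]
    exact Submodule.smul_mem _ _ (Submodule.subset_span rfl)
  · rintro g ⟨d, hd, -, rfl⟩
    exact qExpand_jqModC_mem L d

/-- the Gauss valuation ring of `L(X₀(N))` attached to `A` -/
abbrev RwC : ValuationSubring (modularFunctionFieldFullC L N) :=
  Rw A (modularFunctionFieldFullC L N) (hasGaussFrac_fullC L A N)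

/-- its residue field, inside `k((Q))` -/
abbrev FresC : IntermediateField 𝕜 (LaurentSeries 𝕜) :=
  Fres A (modularFunctionFieldFullC L N) (hasGaussFrac_fullC L A N)

/-- **the reduction datum of `L(X₀(N))`** at a valuation subring `A` of `L` -/
abbrev redDataC : RedData L (modularFunctionFieldFullC L N) 𝕜 (FresC L A N) :=
  redData A (modularFunctionFieldFullC L N) (hasGaussFrac_fullC L A N)

/-- the generators `j(q^d)` over `A` lie in the function field -/
theorem emb_genC_mem {d : ℕ} [NeZero d] (hd : d ∣ N) :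
    emb A (qExpand A d (jqModC A)) ∈ modularFunctionFieldFullC L N := by
  rw [emb, coeffMap_qExpand, coeffMap_jqModC]
  exact IntermediateField.subset_adjoin L _ (mem_divisorExpansionsC L N hd)

/-- the generator `j(q^d)` as an element of the function field -/
def genC {d : ℕ} [NeZero d] (hd : d ∣ N) : modularFunctionFieldFullC L N :=
  ⟨emb A (qExpand A d (jqModC A)), emb_genC_mem L A N hd⟩

theorem coe_genC {d : ℕ} [NeZero d] (hd : d ∣ N) :
    ((genC L A N hd : modularFunctionFieldFullC L N) : LaurentSeries L) =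
      qExpand L d (jqModC L) := by
  show emb A (qExpand A d (jqModC A)) = _
  rw [emb, coeffMap_qExpand, coeffMap_jqModC]

theorem genC_mem_RwC {d : ℕ} [NeZero d] (hd : d ∣ N) : genC L A N hd ∈ RwC L A N :=
  int_mem_Rw (hGF := hasGaussFrac_fullC L A N) (emb_genC_mem L A N hd)

/-- `red (j(q^d)) = j~(Q^d)` -/
theorem coe_red_genC {d : ℕ} [NeZero d] (hd : d ∣ N) (h : genC L A N hd ∈ RwC L A N) :
    (((redDataC L A N).red ⟨genC L A N hd, h⟩ : FresC L A N) : LaurentSeries 𝕜) =
      qExpand 𝕜 d (jqModC 𝕜) := by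
  refine (redL_int (hGF := hasGaussFrac_fullC L A N) (emb_genC_mem L A N hd)).trans ?_
  rw [rd, coeffMap_qExpand, coeffMap_jqModC]

/-- the function field `k(j(Q^d) : d ∣ N)` over the residue field is contained in the residue
field of the Gauss valuation -/
theorem fullC_le_FresC : modularFunctionFieldFullC 𝕜 N ≤ FresC L A N := by
  unfold modularFunctionFieldFullC
  rw [IntermediateField.adjoin_le_iff]
  rintro x ⟨d, hne, hd, rfl⟩
  refine ⟨⟨genC L A N hd, genC_mem_RwC L A N hd⟩, ?_⟩
  exact coe_red_genC L A N hd _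

/-- `j` is a Gauss chart -/
theorem isGaussChart_jC : (redDataC L A N).IsGaussChart (genC L A N (one_dvd N)) := by
  refine ⟨genC_mem_RwC L A N _, ?_⟩
  apply Fres.transcendental_of_coe
  rw [coe_red_genC, qExpand_one_apply]
  exact transcendental_jqModC _

/-! ### `L = ℚ̄` -/

section Qbar

variable (A : ValuationSubring (AlgebraicClosure ℚ)) [NeZero N]

/-- over `ℚ̄` the two descriptions of the Gauss valuation ring agree -/
theorem mem_RwC_iff_mem_RwBar (x : LaurentSeries (AlgebraicClosure ℚ))
    (h1 : x ∈ modularFunctionFieldFullC (AlgebraicClosure ℚ) N)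
    (h2 : x ∈ modularFunctionFieldBar N) :
    (⟨x, h1⟩ : modularFunctionFieldFullC (AlgebraicClosure ℚ) N) ∈
        RwC (AlgebraicClosure ℚ) A N ↔
      (⟨x, h2⟩ : modularFunctionFieldBar N) ∈ RwBar N A := by
  have hF := Fermat.Agent.S24_helper62.modularFunctionFieldBar_eq N
  constructor
  · rintro ⟨a, b, ha, hb, hb0, hx⟩
    exact ⟨a, b, hF ▸ ha, hF ▸ hb, hb0, hx⟩
  · rintro ⟨a, b, ha, hb, hb0, hx⟩
    exact ⟨a, b, hF ▸ ha, hF ▸ hb, hb0, hx⟩

end Qbar

end Fermat.Agent.GK.Val.GaussBase
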