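/-
GATE-K/L PREP (helper45): BASE EXTENSION for the Gauss valuation.

`ι : L →+* L'` a homomorphism of fields, `A ⊂ L`, `A' ⊂ L'` valuation subrings with
`A = ι⁻¹(A')`; `F ≤ L((q))`, `F' ≤ L'((q))` with `ι_*(F) ⊂ F'` (coefficientwise), both with Gauss
fractions.  Then

* `resMap : k(A) →+* k(A')` the induced map of residue fields;
* `mapF : F →+* F'`;
* `mem_Rw_iff : x ∈ Rw A F ↔ mapF x ∈ Rw A' F'`        (the Gauss valuation of `F'` RESTRICTS to the
  Gauss valuation of `F`);
* `redL_mapF : redL' (mapF x) = (resMap)_* (redL x)`   (the reductions are compatible);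
* `coeffMap_mem_Fres`, `coe_red_mapRw`.

Modular instance: `coeffMap ι` maps `L(X₀(N))` into `L'(X₀(N))`; `mem_RwC_iff`, `redL_mapC`.
-/
import Fermat.Agent.GK.Val.GaussBase

set_option autoImplicit false

noncomputable section

namespace Fermat.Agent.GK.Val.BaseChange

open HahnSeries ModularCurve IsLocalRing
open Fermat.Agent.GJ.J1 Fermat.Agent.GJ.J1.Val

section Generic

variable {L L' : Type*} [Field L] [Field L'] (ι : L →+* L')
  (A : ValuationSubring L) (A' : ValuationSubring L')
  (hA : ∀ x : L, x ∈ A ↔ ι x ∈ A')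

/-- the restriction `A →+* A'` of `ι` -/
def ιA : A →+* A' :=
  (ι.comp A.subtype).codRestrict A' (fun x => (hA x).1 x.2)

@[simp]
theorem coe_ιA (a : A) : ((ιA ι A A' hA a : A') : L') = ι (a : L) := rfl

theorem subtype_comp_ιA : A'.subtype.comp (ιA ι A A' hA) = ι.comp A.subtype := rfl

instance isLocalHom_ιA : IsLocalHom (ιA ι A A' hA) := by
  constructor
  intro a ha
  obtain ⟨b, hb⟩ := ha.exists_right_inv
  have hb' : ι (a : L) * (b : L') = 1 := by
    have := congrArg (fun z : A' => (z : L')) hb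
    simpa using this
  have ha0 : (a : L) ≠ 0 := by
    intro h0
    rw [h0, map_zero, zero_mul] at hb'
    exact zero_ne_one hb'
  have hinv : ι ((a : L)⁻¹) = (b : L') := by
    rw [map_inv₀]
    exact inv_eq_of_mul_eq_one_right hb'
  have hmem : (a : L)⁻¹ ∈ A := by
    rw [hA, hinv]
    exact b.2
  refine IsUnit.of_mul_eq_one ⟨(a : L)⁻¹, hmem⟩ ?_
  ext
  show (a : L) * (a : L)⁻¹ = 1
  exact mul_inv_cancel₀ ha0

/-- the induced map of residue fields -/
def resMap : ResidueField A →+* ResidueField A' :=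
  ResidueField.map (ιA ι A A' hA)

theorem resMap_residue (a : A) :
    resMap ι A A' hA (residue A a) = residue A' (ιA ι A A' hA a) :=
  ResidueField.map_residue _ _

theorem resMap_comp_residue :
    (resMap ι A A' hA).comp (residue A) = (residue A').comp (ιA ι A A' hA) :=
  RingHom.ext fun a => resMap_residue ι A A' hA a

theorem resMap_injective : Function.Injective (resMap ι A A' hA) :=
  (resMap ι A A' hA).injective

theorem coeffMap_injective {R S : Type*} [CommRing R] [CommRing S] (f : R →+* S)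
    (hf : Function.Injective f) : Function.Injective (coeffMap f) := by
  intro x y h
  ext n
  apply hf
  have := congrArg (fun z : LaurentSeries S => z.coeff n) h
  simpa using this

/-- `ι_* ∘ emb = emb' ∘ (ι|A)_*` -/
theorem coeffMap_emb (a : LaurentSeries A) :
    coeffMap ι (emb A a) = emb A' (coeffMap (ιA ι A A' hA) a) := by
  rw [emb, emb, coeffMap_coeffMap, coeffMap_coeffMap, subtype_comp_ιA]

/-- `rd' ∘ (ι|A)_* = (ι~)_* ∘ rd` -/
theorem rd_coeffMap (a : LaurentSeries A) :
    rd A' (coeffMap (ιA ι A A' hA) a) = coeffMap (resMap ι A A' hA) (rd A a) := by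
  rw [rd, rd, coeffMap_coeffMap, coeffMap_coeffMap, resMap_comp_residue]

variable (F : IntermediateField L (LaurentSeries L))
  (F' : IntermediateField L' (LaurentSeries L'))
  (hF : ∀ x ∈ F, coeffMap ι x ∈ F')

include hF in
theorem IsFrac.map {x : LaurentSeries L} {a b : LaurentSeries A} (h : IsFrac A F x a b) :
    IsFrac A' F' (coeffMap ι x) (coeffMap (ιA ι A A' hA) a) (coeffMap (ιA ι A A' hA) b) := by
  obtain ⟨ha, hb, hb0, hx⟩ := h
  refine ⟨?_, ?_, ?_, ?_⟩
  · rw [← coeffMap_emb]; exact hF _ ha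
  · rw [← coeffMap_emb]; exact hF _ hb
  · rw [rd_coeffMap]
    intro h0
    exact hb0 (coeffMap_injective _ (resMap_injective ι A A' hA) (by rw [h0, map_zero]))
  · rw [← coeffMap_emb, ← coeffMap_emb, ← map_mul, hx]

/-- the base extension map `F →+* F'` -/
def mapF : F →+* F' where
  toFun x := ⟨coeffMap ι (x : LaurentSeries L), hF _ x.2⟩
  map_one' := by ext1; simp
  map_mul' x y := by ext1; simp
  map_zero' := by ext1; simp
  map_add' x y := by ext1; simp

@[simp]
theorem coe_mapF (x : F) :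
    ((mapF ι F F' hF x : F') : LaurentSeries L') = coeffMap ι (x : LaurentSeries L) := rfl

variable (hGF : HasGaussFrac A F) (hGF' : HasGaussFrac A' F')

include hA in
/-- the Gauss valuation ring maps into the Gauss valuation ring -/
theorem mapF_mem_Rw {x : F} (hx : x ∈ Rw A F hGF) : mapF ι F F' hF x ∈ Rw A' F' hGF' := by
  obtain ⟨a, b, h⟩ := hx
  exact ⟨_, _, IsFrac.map ι A A' hA F F' hF h⟩

/-- **compatibility of the reductions** -/
theorem redL_mapF {x : F} (hx : x ∈ Rw A F hGF) (hx' : mapF ι F F' hF x ∈ Rw A' F' hGF') :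
    redL A' F' hGF' ⟨mapF ι F F' hF x, hx'⟩ =
      coeffMap (resMap ι A A' hA) (redL A F hGF ⟨x, hx⟩) := by
  obtain ⟨a, b, h⟩ := hx
  have h' := IsFrac.map ι A A' hA F F' hF h
  have e1 : redL A F hGF ⟨x, ⟨a, b, h⟩⟩ = rd A a / rd A b := redL_eq (x := ⟨x, ⟨a, b, h⟩⟩) h
  have e2 : redL A' F' hGF' ⟨mapF ι F F' hF x, hx'⟩ = _ :=
    redL_eq (x := ⟨mapF ι F F' hF x, hx'⟩) h'
  rw [e1, e2, rd_coeffMap, rd_coeffMap, map_div₀]

include hA in
/-- **the Gauss valuation of `F'` restricts to the Gauss valuation of `F`** -/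
theorem mem_Rw_iff (x : F) : x ∈ Rw A F hGF ↔ mapF ι F F' hF x ∈ Rw A' F' hGF' := by
  refine ⟨mapF_mem_Rw ι A A' hA F F' hF hGF hGF', fun hx' => ?_⟩
  by_contra hx
  have hx0 : x ≠ 0 := fun h0 => hx (h0 ▸ zero_mem _)
  have hinv : x⁻¹ ∈ Rw A F hGF := ((Rw A F hGF).mem_or_inv_mem x).resolve_left hx
  have hred : redL A F hGF ⟨x⁻¹, hinv⟩ = 0 := by
    by_contra hne
    have := inv_mem_of_redL_ne_zero (x := ⟨x⁻¹, hinv⟩) hne
    rw [inv_inv] at this
    exact hx this
  have hinv' := mapF_mem_Rw ι A A' hA F F' hF hGF hGF' hinv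
  have hred' := redL_mapF ι A A' hA F F' hF hGF hGF' hinv hinv'
  rw [hred, map_zero] at hred'
  have hmul : (⟨mapF ι F F' hF x, hx'⟩ : Rw A' F' hGF') * ⟨mapF ι F F' hF x⁻¹, hinv'⟩ = 1 := by
    ext1
    show mapF ι F F' hF x * mapF ι F F' hF x⁻¹ = 1
    rw [← map_mul, mul_inv_cancel₀ hx0, map_one]
  have := congrArg (redL A' F' hGF') hmul
  rw [map_mul, hred', mul_zero, map_one] at this
  exact zero_ne_one this

include hA in
theorem Rw_eq_comap : Rw A F hGF = (Rw A' F' hGF').comap (mapF ι F F' hF) := by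
  ext x
  exact mem_Rw_iff ι A A' hA F F' hF hGF hGF' x

/-- the map `Rw → Rw'` -/
def mapRw : Rw A F hGF →+* Rw A' F' hGF' :=
  ((mapF ι F F' hF).comp (Rw A F hGF).subtype).codRestrict (Rw A' F' hGF')
    (fun x => mapF_mem_Rw ι A A' hA F F' hF hGF hGF' x.2)

@[simp]
theorem coe_mapRw (x : Rw A F hGF) :
    ((mapRw ι A A' hA F F' hF hGF hGF' x : Rw A' F' hGF') : F') = mapF ι F F' hF (x : F) := rfl

theorem redL_mapRw (x : Rw A F hGF) :
    redL A' F' hGF' (mapRw ι A A' hA F F' hF hGF hGF' x) =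
      coeffMap (resMap ι A A' hA) (redL A F hGF x) :=
  redL_mapF ι A A' hA F F' hF hGF hGF' x.2 _

include hF in
/-- the residue field of `F` maps into the residue field of `F'` -/
theorem coeffMap_mem_Fres {y : LaurentSeries (ResidueField A)} (hy : y ∈ Fres A F hGF) :
    coeffMap (resMap ι A A' hA) y ∈ Fres A' F' hGF' := by
  rw [mem_Fres_iff] at hy ⊢
  obtain ⟨x, rfl⟩ := hy
  exact ⟨mapRw ι A A' hA F F' hF hGF hGF' x, redL_mapRw ι A A' hA F F' hF hGF hGF' x⟩

theorem coe_red_mapRw (x : Rw A F hGF) :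
    ((red A' F' hGF' (mapRw ι A A' hA F F' hF hGF hGF' x) : Fres A' F' hGF') :
        LaurentSeries (ResidueField A')) =
      coeffMap (resMap ι A A' hA)
        ((red A F hGF x : Fres A F hGF) : LaurentSeries (ResidueField A)) :=
  redL_mapRw ι A A' hA F F' hF hGF hGF' x

end Generic

/-! ### The modular function fields -/

section Modular

open Fermat.Agent.GK.Val.GaussBase

variable {L L' : Type*} [Field L] [Field L'] (ι : L →+* L')

/-- `ι_*` maps `L(j(q^d) : d ∣ N)` into `L'(j(q^d) : d ∣ N)` -/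
theorem coeffMap_mem_fullC (N : ℕ) {x : LaurentSeries L}
    (hx : x ∈ modularFunctionFieldFullC L N) :
    coeffMap ι x ∈ modularFunctionFieldFullC L' N := by
  have key : (modularFunctionFieldFullC L N).toSubfield ≤
      (modularFunctionFieldFullC L' N).toSubfield.comap (coeffMap ι) := by
    unfold modularFunctionFieldFullC
    apply IntermediateField.adjoin_le_subfield
    · rintro _ ⟨c, rfl⟩
      rw [SetLike.mem_coe, Subfield.mem_comap, IntermediateField.mem_toSubfield,
        algebraMap_laurentSeries_eq_single, coeffMap_single,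
        ← algebraMap_laurentSeries_eq_single]
      exact IntermediateField.algebraMap_mem _ _
    · rintro _ ⟨d, hne, hd, rfl⟩
      rw [SetLike.mem_coe, Subfield.mem_comap, IntermediateField.mem_toSubfield,
        coeffMap_qExpand, coeffMap_jqModC]
      exact IntermediateField.subset_adjoin L' _ (mem_divisorExpansionsC L' N hd)
  exact key hx

variable (A : ValuationSubring L) (A' : ValuationSubring L')
  (hA : ∀ x : L, x ∈ A ↔ ι x ∈ A') (N : ℕ)

/-- the base extension `L(X₀(N)) →+* L'(X₀(N))` -/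
abbrev mapC : modularFunctionFieldFullC L N →+* modularFunctionFieldFullC L' N :=
  mapF ι (modularFunctionFieldFullC L N) (modularFunctionFieldFullC L' N)
    (fun _ hx => coeffMap_mem_fullC ι N hx)

theorem mapC_genC {d : ℕ} [NeZero d] (hd : d ∣ N) :
    mapC ι N (genC L A N hd) = genC L' A' N hd := by
  ext1
  rw [coe_mapF, coe_genC, coe_genC, coeffMap_qExpand, coeffMap_jqModC]

include hA in
/-- **the cusp-`∞` Gauss valuation of `L'(X₀(N))` restricts to that of `L(X₀(N))`** -/
theorem mem_RwC_iff (x : modularFunctionFieldFullC L N) :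
    x ∈ RwC L A N ↔ mapC ι N x ∈ RwC L' A' N :=
  mem_Rw_iff ι A A' hA _ _ _ _ _ x

/-- the reductions are compatible -/
theorem redL_mapC {x : modularFunctionFieldFullC L N} (hx : x ∈ RwC L A N)
    (hx' : mapC ι N x ∈ RwC L' A' N) :
    redL A' _ (hasGaussFrac_fullC L' A' N) ⟨mapC ι N x, hx'⟩ =
      coeffMap (resMap ι A A' hA) (redL A _ (hasGaussFrac_fullC L A N) ⟨x, hx⟩) :=
  redL_mapF ι A A' hA _ _ _ _ _ hx hx'

include hA in
/-- the residue field of `L(X₀(N))` maps into the residue field of `L'(X₀(N))` -/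
theorem coeffMap_mem_FresC {y : LaurentSeries (ResidueField A)} (hy : y ∈ FresC L A N) :
    coeffMap (resMap ι A A' hA) y ∈ FresC L' A' N :=
  coeffMap_mem_Fres ι A A' hA _ _ (fun _ hx => coeffMap_mem_fullC ι N hx) _ _ hy

end Modular

end Fermat.Agent.GK.Val.BaseChange
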