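/-
GATE-K / K1-DEG (helper45): residue degrees of the two Gauss valuations at a prime `ℓ ∥ N`.

`N = N' * ℓ`, `ℓ ∤ N'`, `A` a valuation subring of `ℚ̄` over `ℓ`, `k` its residue field,
`R = redDataBar N A` the Gauss valuation `w₁` at the cusp `∞` (exists for every `N`),
`Fres = FresBar N A ≤ k((q))` its residue field.  Then, inside `k((q))`:

* `FresBar_le_FresBar_mul` : `k(j(q^d) : d ∣ N') = FresBar N' A ≤ FresBar N A`;
* `psi_le_f1`              : `ψ(N') ≤ f₁ := [Fres : k(j~)]` (and `ψ(N') * [Fres : FresBar N' A] = f₁`);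
* `f2_eq_mul_f1`           : `f₂ := [Fres : k(red (j(q^ℓ)))] = ℓ * f₁`  (`red (j(q^ℓ)) = j~^ℓ`; `j(q^ℓ) = W_ℓ j`
                             is the chart `j` seen by the second valuation `w₂ = w₁ ∘ W_ℓ`);
* `degrees_of_sum_le`      : if `f₁ + f₂ ≤ [F_N : ℚ̄(j)]` (fundamental inequality for `w₁ ≠ w₂`) then
                             `f₁ = ψ(N')`, `f₂ = ℓ ψ(N')` and **`FresBar N A = k(j(q^d) : d ∣ N')`**
                             (RES at `ℓ ∥ N`).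
* generic: `finrank_adjoin_eq_relfinrank`, `relfinrank_pow_char` (`[k(x) : k(x^ℓ)] = ℓ` in char `ℓ`),
  `jdF_mem_Rw`, `coe_red_jdF` (`red (j(q^d)) = j~(q^d)`, every `d ∣ N`), `finiteDimensional_f1`.
-/
import Fermat.Agent.GJ.J1.Gauss.DegAtJUse
import Fermat.Agent.GJ.J1.Res.FresEq
import Fermat.Agent.GJ.J3.QSeries
import Fermat.Agent.GJ.J1.Val.DegJ
import Fermat.Agent.S20_helper27.Prim

set_option autoImplicit false

noncomputable section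

namespace Fermat.Agent.GK.Val.Degrees

open IntermediateField Polynomial

section Generic

variable {k Ω : Type*} [Field k] [Field Ω] [Algebra k Ω]

/-- `[E : k(z)]` computed inside the ambient field -/
theorem finrank_adjoin_eq_relfinrank (E : IntermediateField k Ω) (z : E) :
    Module.finrank k⟮z⟯ E = relfinrank k⟮(z : Ω)⟯ E := by
  have h1 : (k⟮z⟯).map E.val = k⟮(z : Ω)⟯ := by
    rw [adjoin_map, Set.image_singleton]
    rfl
  have h := finrank_comap (k⟮(z : Ω)⟯) E.val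
  rw [fieldRange_val] at h
  rw [← h, ← h1, comap_map]

/-- in characteristic `ℓ`, `[k(x) : k(x^ℓ)] = ℓ` as soon as `x ∉ k(x^ℓ)` -/
theorem relfinrank_pow_char (ℓ : ℕ) [hℓ : Fact ℓ.Prime] [CharP Ω ℓ] (x : Ω)
    (hx : x ∉ k⟮x ^ ℓ⟯) : relfinrank k⟮x ^ ℓ⟯ k⟮x⟯ = ℓ := by
  have hle : k⟮x ^ ℓ⟯ ≤ k⟮x⟯ := by
    rw [adjoin_simple_le_iff]
    exact pow_mem (mem_adjoin_simple_self k x) ℓ
  rw [relfinrank_eq_finrank_of_le hle]
  have hxl : x ^ ℓ ∈ k⟮x ^ ℓ⟯ := mem_adjoin_simple_self k (x ^ ℓ)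
  have hirr : Irreducible (X ^ ℓ - C (⟨x ^ ℓ, hxl⟩ : k⟮x ^ ℓ⟯) : (k⟮x ^ ℓ⟯)[X]) := by
    rw [X_pow_sub_C_irreducible_iff_of_prime hℓ.out]
    intro b hb
    have h1 : ((b : k⟮x ^ ℓ⟯) : Ω) ^ ℓ = x ^ ℓ := by
      have := congrArg (fun z : k⟮x ^ ℓ⟯ => (z : Ω)) hb
      simpa using this
    have h2 : ((b : k⟮x ^ ℓ⟯) : Ω) = x := frobenius_inj Ω ℓ h1
    have h3 : ((b : k⟮x ^ ℓ⟯) : Ω) ∈ k⟮x ^ ℓ⟯ := b.2
    rw [h2] at h3
    exact hx h3
  have hroot : aeval x (X ^ ℓ - C (⟨x ^ ℓ, hxl⟩ : k⟮x ^ ℓ⟯) : (k⟮x ^ ℓ⟯)[X]) = 0 := by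
    rw [map_sub, map_pow, aeval_X, aeval_C]
    exact sub_self _
  have hmonic : (X ^ ℓ - C (⟨x ^ ℓ, hxl⟩ : k⟮x ^ ℓ⟯) : (k⟮x ^ ℓ⟯)[X]).Monic :=
    monic_X_pow_sub_C _ hℓ.out.ne_zero
  have hmin : minpoly (k⟮x ^ ℓ⟯) x = X ^ ℓ - C (⟨x ^ ℓ, hxl⟩ : k⟮x ^ ℓ⟯) :=
    (minpoly.eq_of_irreducible_of_monic hirr hroot hmonic).symm
  have hint : IsIntegral (k⟮x ^ ℓ⟯) x := ⟨_, hmonic, by rw [← aeval_def]; exact hroot⟩
  have hext : extendScalars hle = (k⟮x ^ ℓ⟯)⟮x⟯ := by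
    apply restrictScalars_injective k
    rw [extendScalars_restrictScalars, adjoin_simple_adjoin_simple]
    apply le_antisymm
    · exact adjoin.mono k _ _ (by intro y hy; rw [Set.mem_singleton_iff] at hy; rw [hy]; simp)
    · rw [adjoin_le_iff]
      rintro y (rfl | rfl)
      · exact pow_mem (mem_adjoin_simple_self k x) ℓ
      · exact mem_adjoin_simple_self k _
  rw [hext, adjoin.finrank hint, hmin, natDegree_X_pow_sub_C]

end Generic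

open HahnSeries ModularCurve
open Fermat.Agent.S24 Fermat.Agent.S24_helper62 Fermat.Agent.GJ.J1 Fermat.Agent.GJ.J1.Val
  Fermat.Agent.GJ.J1.Haupt

/-! ### the generators `j(q^d)` in the Gauss valuation ring -/

section Gen

variable (N : ℕ) [NeZero N] (A : ValuationSubring (AlgebraicClosure ℚ))

local notation "𝕜" => IsLocalRing.ResidueField A

theorem jdF_eq_emb {d : ℕ} [NeZero d] (hd : d ∣ N) :
    (jdF N d hd : FN N) = ⟨emb A (qExpand A d (jqModC A)), emb_gen_mem N A hd⟩ := by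
  apply Subtype.ext
  show jdSeries d = emb A (qExpand A d (jqModC A))
  rw [emb, coeffMap_qExpand, coeffMap_jqModC, jdSeries, coeffEmb, coeffMap_qExpand, ← jqModC_rat,
    coeffMap_jqModC]

theorem jdF_mem_Rw {d : ℕ} [NeZero d] (hd : d ∣ N) : jdF N d hd ∈ (redDataBar N A).Rw := by
  rw [jdF_eq_emb N A hd]
  exact int_mem_Rw (hGF := hasGaussFrac_bar N A) _

/-- `red (j(q^d)) = j~(q^d)` (any membership proof) -/
theorem coe_red_jdF {d : ℕ} [NeZero d] (hd : d ∣ N) (h : jdF N d hd ∈ (redDataBar N A).Rw) :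
    (((redDataBar N A).red ⟨jdF N d hd, h⟩ : FresBar N A) : LaurentSeries 𝕜) =
      qExpand 𝕜 d (jqModC 𝕜) := by
  have h1 : (⟨jdF N d hd, h⟩ : (redDataBar N A).Rw) =
      ⟨⟨emb A (qExpand A d (jqModC A)), emb_gen_mem N A hd⟩,
        int_mem_Rw (hGF := hasGaussFrac_bar N A) (emb_gen_mem N A hd)⟩ :=
    Subtype.ext (jdF_eq_emb N A hd)
  rw [h1]
  refine (redL_int (hGF := hasGaussFrac_bar N A) _).trans ?_
  rw [rd, coeffMap_qExpand, coeffMap_jqModC]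

/-- `red j = j~` (any membership proof) -/
theorem coe_red_jF' (h : jF N ∈ (redDataBar N A).Rw) :
    (((redDataBar N A).red ⟨jF N, h⟩ : FresBar N A) : LaurentSeries 𝕜) = jqModC 𝕜 :=
  coe_red_jF N A

end Gen

/-! ### the degrees at `ℓ ∥ N` -/

section Main

variable (N' : ℕ) [NeZero N'] (ℓ : ℕ) [hℓ : Fact ℓ.Prime] [NeZero ℓ] [NeZero (N' * ℓ)]
  (A : ValuationSubring (AlgebraicClosure ℚ))

local notation "𝕜" => IsLocalRing.ResidueField A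

/-- `j~ ∉ k(j~^ℓ)`: the field `k(j~(q^ℓ))` consists of series in `q^ℓ` -/
theorem jqModC_not_mem (κ : Type*) [Field κ] [CharP κ ℓ] :
    jqModC κ ∉ κ⟮jqModC κ ^ ℓ⟯ := by
  intro h
  have hle : κ⟮jqModC κ ^ ℓ⟯ ≤ (qExpandAlgHomC κ ℓ).fieldRange := by
    rw [adjoin_simple_le_iff, ← Fermat.Agent.GJ.J3.QS.qExpand_jqModC_char ℓ]
    exact ⟨jqModC κ, rfl⟩
  obtain ⟨y, hy⟩ := hle h
  have h1 : (jqModC κ).coeff (-1) = 0 := by
    rw [← hy]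
    show (qExpand κ ℓ y).coeff (-1) = 0
    apply qExpand_coeff_of_not_dvd
    intro hdvd
    have h2 : (ℓ : ℤ) ∣ 1 := (dvd_neg.mp hdvd)
    have h3 : ℓ ∣ 1 := by exact_mod_cast h2
    exact hℓ.out.one_lt.ne' (Nat.dvd_one.mp h3)
  rw [coeff_jqModC_neg_one] at h1
  exact one_ne_zero h1

omit hℓ [NeZero ℓ] in
/-- Laurent series over a field of characteristic `ℓ` have characteristic `ℓ` -/
theorem charP_laurent (κ : Type*) [Field κ] [CharP κ ℓ] : CharP (LaurentSeries κ) ℓ :=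
  charP_of_injective_algebraMap (algebraMap κ (LaurentSeries κ)).injective ℓ

omit [NeZero N'] [NeZero ℓ] [NeZero (N' * ℓ)] in
/-- `ψ(N' ℓ) = ψ(N') (ℓ + 1)` for `ℓ ∤ N'` -/
theorem dedekindPsi_mul_prime (hℓN' : ¬ ℓ ∣ N') :
    dedekindPsi (N' * ℓ) = dedekindPsi N' * (ℓ + 1) := by
  have hcop : Nat.Coprime N' ℓ := ((Nat.Prime.coprime_iff_not_dvd hℓ.out).mpr hℓN').symm
  rw [Fermat.Agent.S20_helper27.dedekindPsi_mul hcop]
  have := Fermat.Agent.S20_helper27.dedekindPsi_prime_pow hℓ.out (k := 1) one_pos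
  simp only [pow_one, Nat.sub_self, pow_zero] at this
  rw [this]

/-- `k(j(q^d) : d ∣ N') = FresBar N' A ≤ FresBar (N' ℓ) A` -/
theorem FresBar_le_FresBar_mul (hℓN' : ¬ ℓ ∣ N') (hA : A.LiesOverPrime ℓ) :
    FresBar N' A ≤ FresBar (N' * ℓ) A := by
  have : CharP 𝕜 ℓ := charP_residue A hℓ.out hA
  rw [Fermat.Agent.GJ.J1.Res.FresBar_eq_fullC N' A hℓN' hA,
    ← Fermat.Agent.GJ.J3.QS.modularFunctionFieldFullC_mul_char 𝕜 ℓ N']
  exact full_le_FresBar (N' * ℓ) A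

omit [NeZero ℓ] [NeZero (N' * ℓ)] in
/-- `[FresBar N' A : k(j~)] = ψ(N')`, computed inside `k((q))` -/
theorem relfinrank_FresBar (hℓN' : ¬ ℓ ∣ N') (hA : A.LiesOverPrime ℓ) :
    relfinrank 𝕜⟮jqModC 𝕜⟯ (FresBar N' A) = dedekindPsi N' := by
  have h := Fermat.Agent.GJ.GaussDeg.finrank_Fres_eq_psi N' A hℓN' hA
  rw [finrank_adjoin_eq_relfinrank, coe_red_jF] at h
  exact h

end Main

section Degrees

variable (N : ℕ) [NeZero N] (ℓ : ℕ) [hℓ : Fact ℓ.Prime] [NeZero ℓ]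
  (A : ValuationSubring (AlgebraicClosure ℚ))

local notation "𝕜" => IsLocalRing.ResidueField A

/-- `f₁` inside `k((q))` -/
theorem f1_eq_relfinrank (h : jF N ∈ (redDataBar N A).Rw) :
    Module.finrank 𝕜⟮(redDataBar N A).red ⟨jF N, h⟩⟯ (FresBar N A) =
      relfinrank 𝕜⟮jqModC 𝕜⟯ (FresBar N A) := by
  rw [finrank_adjoin_eq_relfinrank, coe_red_jF']

/-- `[FresBar N A : k(j~(q^d))]` inside `k((q))` -/
theorem fd_eq_relfinrank {d : ℕ} [NeZero d] (hd : d ∣ N) (h : jdF N d hd ∈ (redDataBar N A).Rw) :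
    Module.finrank 𝕜⟮(redDataBar N A).red ⟨jdF N d hd, h⟩⟯ (FresBar N A) =
      relfinrank 𝕜⟮qExpand 𝕜 d (jqModC 𝕜)⟯ (FresBar N A) := by
  rw [finrank_adjoin_eq_relfinrank, coe_red_jdF]

/-- `j~ ∈ FresBar N A` -/
theorem jqModC_mem_FresBar : jqModC 𝕜 ∈ FresBar N A := by
  rw [← coe_red_jF N A]
  exact ((redDataBar N A).red ⟨jF N, jF_mem_Rw N A⟩).2

/-- **`f₂ = ℓ f₁`**: the residue degree of the chart `j(q^ℓ)` (`= W_ℓ j`) is `ℓ` times that of `j` -/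
theorem f2_eq_mul_f1 (hA : A.LiesOverPrime ℓ) (hd : ℓ ∣ N) (h1 : jF N ∈ (redDataBar N A).Rw)
    (h2 : jdF N ℓ hd ∈ (redDataBar N A).Rw) :
    Module.finrank 𝕜⟮(redDataBar N A).red ⟨jdF N ℓ hd, h2⟩⟯ (FresBar N A) =
      ℓ * Module.finrank 𝕜⟮(redDataBar N A).red ⟨jF N, h1⟩⟯ (FresBar N A) := by
  have : CharP 𝕜 ℓ := charP_residue A hℓ.out hA
  have : CharP (LaurentSeries 𝕜) ℓ := charP_laurent ℓ 𝕜
  rw [f1_eq_relfinrank, fd_eq_relfinrank, Fermat.Agent.GJ.J3.QS.qExpand_jqModC_char ℓ]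
  have hle1 : 𝕜⟮jqModC 𝕜 ^ ℓ⟯ ≤ 𝕜⟮jqModC 𝕜⟯ := by
    rw [adjoin_simple_le_iff]
    exact pow_mem (mem_adjoin_simple_self 𝕜 _) ℓ
  have hle2 : 𝕜⟮jqModC 𝕜⟯ ≤ FresBar N A := by
    rw [adjoin_simple_le_iff]
    exact jqModC_mem_FresBar N A
  rw [← relfinrank_mul_relfinrank hle1 hle2, relfinrank_pow_char ℓ _ (jqModC_not_mem ℓ 𝕜)]

/-- the residue field is finite over `k(j~)`, and `f₁ ≤ [F_N : ℚ̄(j)]` (every level `N`) -/
theorem finiteDimensional_f1 (h : jF N ∈ (redDataBar N A).Rw) :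
    FiniteDimensional 𝕜⟮(redDataBar N A).red ⟨jF N, h⟩⟯ (FresBar N A) ∧
      Module.finrank 𝕜⟮(redDataBar N A).red ⟨jF N, h⟩⟯ (FresBar N A) ≤
        Module.finrank (AlgebraicClosure ℚ)⟮jF N⟯ (FN N) := by
  have := Fermat.Agent.GJ.J1.Val.finiteDimensional_jF N
  have htr : Transcendental 𝕜 ((redDataBar N A).red ⟨jF N, h⟩) := by
    apply Fres.transcendental_of_coe
    rw [coe_red_jF']
    exact transcendental_jqModC _
  exact Fermat.Agent.GJ.S37.ResDeg.finrank_residue_le (redDataBar N A).A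
    (redDataBar N A).Rw (fun a ha => ((redDataBar N A).mem_A_iff a).1 ha)
    (redDataBar N A).red (redDataBar N A).res (redDataBar N A).red_algebraMap
    (redDataBar N A).red_surjective ⟨jF N, h⟩ htr

end Degrees

section Final

variable (N' : ℕ) [NeZero N'] (ℓ : ℕ) [hℓ : Fact ℓ.Prime] [NeZero ℓ] [NeZero (N' * ℓ)]
  (A : ValuationSubring (AlgebraicClosure ℚ))

local notation "𝕜" => IsLocalRing.ResidueField A

/-- `ψ(N') ∣ f₁`, more precisely `ψ(N') * [FresBar (N' ℓ) A : FresBar N' A] = f₁` -/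
theorem psi_mul_relfinrank_eq_f1 (hℓN' : ¬ ℓ ∣ N') (hA : A.LiesOverPrime ℓ)
    (h1 : jF (N' * ℓ) ∈ (redDataBar (N' * ℓ) A).Rw) :
    dedekindPsi N' * relfinrank (FresBar N' A) (FresBar (N' * ℓ) A) =
      Module.finrank 𝕜⟮(redDataBar (N' * ℓ) A).red ⟨jF (N' * ℓ), h1⟩⟯ (FresBar (N' * ℓ) A) := by
  rw [f1_eq_relfinrank, ← relfinrank_FresBar N' ℓ A hℓN' hA]
  have hle1 : 𝕜⟮jqModC 𝕜⟯ ≤ FresBar N' A := by
    rw [adjoin_simple_le_iff]
    exact jqModC_mem_FresBar N' A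
  exact relfinrank_mul_relfinrank hle1 (FresBar_le_FresBar_mul N' ℓ A hℓN' hA)

/-- **`ψ(N') ≤ f₁`** -/
theorem psi_le_f1 (hℓN' : ¬ ℓ ∣ N') (hA : A.LiesOverPrime ℓ)
    (h1 : jF (N' * ℓ) ∈ (redDataBar (N' * ℓ) A).Rw) :
    dedekindPsi N' ≤
      Module.finrank 𝕜⟮(redDataBar (N' * ℓ) A).red ⟨jF (N' * ℓ), h1⟩⟯ (FresBar (N' * ℓ) A) := by
  have hmul := psi_mul_relfinrank_eq_f1 N' ℓ A hℓN' hA h1
  have := (finiteDimensional_f1 (N' * ℓ) A h1).1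
  have hpos : 0 < Module.finrank 𝕜⟮(redDataBar (N' * ℓ) A).red ⟨jF (N' * ℓ), h1⟩⟯
      (FresBar (N' * ℓ) A) := Module.finrank_pos
  rw [← hmul] at hpos ⊢
  exact Nat.le_mul_of_pos_right _ (Nat.pos_of_mul_pos_left hpos)

/-- **The residue degrees at `ℓ ∥ N` and RES**, from the fundamental inequality
`f₁ + f₂ ≤ [F_N : ℚ̄(j)]` for the two Gauss valuations `w₁`, `w₂ = w₁ ∘ W_ℓ`
(`f₂ = [Fres : k(red (j(q^ℓ)))]`, `j(q^ℓ) = W_ℓ j`). -/
theorem degrees_of_sum_le (hℓN' : ¬ ℓ ∣ N') (hA : A.LiesOverPrime ℓ)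
    (h1 : jF (N' * ℓ) ∈ (redDataBar (N' * ℓ) A).Rw)
    (h2 : jdF (N' * ℓ) ℓ (dvd_mul_left ℓ N') ∈ (redDataBar (N' * ℓ) A).Rw)
    (hsum : Module.finrank 𝕜⟮(redDataBar (N' * ℓ) A).red ⟨jF (N' * ℓ), h1⟩⟯
          (FresBar (N' * ℓ) A) +
        Module.finrank 𝕜⟮(redDataBar (N' * ℓ) A).red ⟨jdF (N' * ℓ) ℓ (dvd_mul_left ℓ N'), h2⟩⟯
          (FresBar (N' * ℓ) A) ≤
      Module.finrank (AlgebraicClosure ℚ)⟮jF (N' * ℓ)⟯ (FN (N' * ℓ))) :
    Module.finrank 𝕜⟮(redDataBar (N' * ℓ) A).red ⟨jF (N' * ℓ), h1⟩⟯ (FresBar (N' * ℓ) A) =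
        dedekindPsi N' ∧
      Module.finrank 𝕜⟮(redDataBar (N' * ℓ) A).red ⟨jdF (N' * ℓ) ℓ (dvd_mul_left ℓ N'), h2⟩⟯
        (FresBar (N' * ℓ) A) = ℓ * dedekindPsi N' ∧
      FresBar (N' * ℓ) A = modularFunctionFieldFullC 𝕜 N' := by
  have hf2 := f2_eq_mul_f1 (N' * ℓ) ℓ A hA (dvd_mul_left ℓ N') h1 h2
  have hmul := psi_mul_relfinrank_eq_f1 N' ℓ A hℓN' hA h1
  have hle := psi_le_f1 N' ℓ A hℓN' hA h1
  rw [hf2, Fermat.Agent.S24_helper62.finrank_FN, dedekindPsi_mul_prime N' ℓ hℓN'] at hsum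
  set f1 := Module.finrank 𝕜⟮(redDataBar (N' * ℓ) A).red ⟨jF (N' * ℓ), h1⟩⟯
    (FresBar (N' * ℓ) A) with hf1
  have hf1le : f1 ≤ dedekindPsi N' := by
    have h3 : f1 * (ℓ + 1) ≤ dedekindPsi N' * (ℓ + 1) := by
      calc f1 * (ℓ + 1) = f1 + ℓ * f1 := by ring
        _ ≤ _ := hsum
    exact Nat.le_of_mul_le_mul_right h3 (Nat.succ_pos ℓ)
  have hf1eq : f1 = dedekindPsi N' := le_antisymm hf1le hle
  refine ⟨hf1eq, by rw [hf2, hf1eq], ?_⟩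
  have hψ : 0 < dedekindPsi N' := by
    rw [← Fermat.Agent.S24_helper62.finrank_FN N']
    have := Fermat.Agent.GJ.J1.Val.finiteDimensional_jF N'
    exact Module.finrank_pos
  have hr : relfinrank (FresBar N' A) (FresBar (N' * ℓ) A) = 1 := by
    rw [hf1eq] at hmul
    exact Nat.eq_of_mul_eq_mul_left hψ (by rw [hmul, mul_one])
  rw [relfinrank_eq_one_iff] at hr
  rw [← Fermat.Agent.GJ.J1.Res.FresBar_eq_fullC N' A hℓN' hA]
  exact le_antisymm hr (FresBar_le_FresBar_mul N' ℓ A hℓN' hA)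

end Final

end Fermat.Agent.GK.Val.Degrees
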