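/-
GATE-K / K1 PLUG-IN (helper45): the two Gauss valuations `w₁` (`redDataBar N A`, helper45) and
`w₂ = w₁ ∘ W_ℓ` (`redData2 N A h`, helper42) of `F_N`, `N = N' ℓ`, `ℓ ∤ N'`, `A` over `ℓ`:

* `degrees`       : `f₁ = ψ(N')`, `f₂ = ℓ ψ(N')`, `f₁ + f₂ = [F_N : ℚ̄(j)]`, and **RES**:
                    `FresBar N A = k(j(q^d) : d ∣ N')` (the common residue field of `w₁`, `w₂` is the
                    function field of `X₀(N')` in characteristic `ℓ`);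
* `hasOrthoBases` : `HasOrthoBases A (Rw₁ ⊓ Rw₂) (rad)` (helper90's `hasOrthoBases2`): the input of
                    `finrank_redBall2`, `exists_lift2`, `OrthFam`, ...

Inputs: helper90 `MultiVal.sum_finrank_le` (fundamental inequality), helper42 `Rw1_ne_Rw2`,
helper45 `Degrees.degrees_of_sum_le`.
-/
import Fermat.Agent.GK.AL.SecondValNe
import Fermat.Agent.GK.MultiVal.TwoRedData
import Fermat.Agent.GK.Val.Degrees

set_option autoImplicit false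

noncomputable section

namespace Fermat.Agent.GK.Val.TwoVal

open HahnSeries ModularCurve IntermediateField
open Fermat.Agent.S24 Fermat.Agent.S24_helper62 Fermat.Agent.GJ.J1 Fermat.Agent.GJ.J1.Val
  Fermat.Agent.GK.AL Fermat.Agent.GK.MultiVal Fermat.Agent.GK.Val.Degrees

variable (N' : ℕ) [NeZero N'] (ℓ : ℕ) [hℓ : Fact ℓ.Prime] [NeZero ℓ] [NeZero (N' * ℓ)]
  (A : ValuationSubring (AlgebraicClosure ℚ))

local notation "𝕜" => IsLocalRing.ResidueField A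

omit [NeZero N'] [NeZero ℓ] [NeZero (N' * ℓ)] in
/-- `ℓ ∥ N' ℓ` for `ℓ ∤ N'` -/
theorem exactDvd (hℓN' : ¬ ℓ ∣ N') : ExactDvd ℓ (N' * ℓ) :=
  ⟨hℓ.out, dvd_mul_left ℓ N', fun h => hℓN' (by
    rw [pow_two] at h
    exact (Nat.mul_dvd_mul_iff_right hℓ.out.pos).mp h)⟩

variable (h : ExactDvd ℓ (N' * ℓ))

omit [NeZero N'] hℓ [NeZero ℓ] in
/-- the two reduction data are compatible (same `A`, same residue map) -/
theorem redCompat : RedCompat (redDataBar (N' * ℓ) A) (redData2 (N' * ℓ) A h) :=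
  ⟨rfl, fun _ _ _ => rfl⟩

omit [NeZero N'] in
/-- `red₂ j = red₁ (j(q^ℓ))` -/
theorem red2_jF (h1 : jF (N' * ℓ) ∈ (redData2 (N' * ℓ) A h).Rw)
    (h2 : jdF (N' * ℓ) ℓ (dvd_mul_left ℓ N') ∈ (redDataBar (N' * ℓ) A).Rw) :
    (redData2 (N' * ℓ) A h).red ⟨jF (N' * ℓ), h1⟩ =
      (redDataBar (N' * ℓ) A).red ⟨jdF (N' * ℓ) ℓ (dvd_mul_left ℓ N'), h2⟩ := by
  apply Subtype.ext
  rw [coe_red_jdF]
  have e : (⟨jF (N' * ℓ), h1⟩ : (redData2 (N' * ℓ) A h).Rw) =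
      ⟨gen (N' * ℓ) (idxOne (N' * ℓ)), gen_mem_Rw2 (N' * ℓ) A h _⟩ :=
    Subtype.ext (jF_eq_gen (N' * ℓ))
  rw [e, coe_red2_gen]
  have h3 : (swapIdx h (idxOne (N' * ℓ))).1 = ℓ := by
    have hnd : ¬ ℓ ∣ (idxOne (N' * ℓ)).1 := by
      show ¬ ℓ ∣ 1
      exact fun h1 => hℓ.out.one_lt.ne' (Nat.dvd_one.mp h1)
    rw [swapIdx_apply, swapFun_of_not_dvd h hnd]
    show ℓ * 1 = ℓ
    rw [mul_one]
  exact qExpand_congr h3 _

/-- **K1, degrees**: at `ℓ ∥ N = N' ℓ`, for `A` over `ℓ` and `Rw₁ ≠ Rw₂`: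
`f₁ = ψ(N')`, `f₂ = ℓ ψ(N')`, `f₁ + f₂ = [F_N : ℚ̄(j)]`, and **RES**: the common residue field of
`w₁` and `w₂` is the function field `k(j(q^d) : d ∣ N')` of `X₀(N')` in characteristic `ℓ`. -/
theorem degrees (hℓN' : ¬ ℓ ∣ N') (hA : A.LiesOverPrime ℓ)
    (h1 : jF (N' * ℓ) ∈ (redDataBar (N' * ℓ) A).Rw)
    (h2 : jF (N' * ℓ) ∈ (redData2 (N' * ℓ) A h).Rw) :
    Module.finrank 𝕜⟮(redDataBar (N' * ℓ) A).red ⟨jF (N' * ℓ), h1⟩⟯ (FresBar (N' * ℓ) A) =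
        dedekindPsi N' ∧
      Module.finrank 𝕜⟮(redData2 (N' * ℓ) A h).red ⟨jF (N' * ℓ), h2⟩⟯ (FresBar (N' * ℓ) A) =
        ℓ * dedekindPsi N' ∧
      FresBar (N' * ℓ) A = modularFunctionFieldFullC 𝕜 N' ∧
      Module.finrank 𝕜⟮(redDataBar (N' * ℓ) A).red ⟨jF (N' * ℓ), h1⟩⟯ (FresBar (N' * ℓ) A) +
        Module.finrank 𝕜⟮(redData2 (N' * ℓ) A h).red ⟨jF (N' * ℓ), h2⟩⟯ (FresBar (N' * ℓ) A) =
        Module.finrank (AlgebraicClosure ℚ)⟮jF (N' * ℓ)⟯ (FN (N' * ℓ)) := by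
  have := Fermat.Agent.GJ.J1.Val.finiteDimensional_jF (N' * ℓ)
  have hne := Rw1_ne_Rw2 (N' * ℓ) A h hA
  have hsum := sum_finrank_le (redCompat N' ℓ A h) hne
    (isGaussChart_jF_1 (N' * ℓ) A) (isGaussChart_jF_2 (N' * ℓ) A h)
  have hj : jdF (N' * ℓ) ℓ (dvd_mul_left ℓ N') ∈ (redDataBar (N' * ℓ) A).Rw :=
    jdF_mem_Rw (N' * ℓ) A _
  have e2 := red2_jF N' ℓ A h h2 hj
  rw [red2_jF N' ℓ A h _ hj] at hsum
  obtain ⟨hf1, hf2, hres⟩ := degrees_of_sum_le N' ℓ A hℓN' hA h1 hj hsum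
  refine ⟨hf1, by rw [e2]; exact hf2, hres, ?_⟩
  rw [e2, hf1, hf2, Fermat.Agent.S24_helper62.finrank_FN, dedekindPsi_mul_prime N' ℓ hℓN']
  ring

/-- **K1, orthonormal bases**: the semilocal ring `Rw₁ ∩ Rw₂` has orthonormal bases for the norm
`max(w₁, w₂)` (helper90's `hasOrthoBases2`), i.e. the lattices `V ∩ Rw₁ ∩ Rw₂` are `A`-free of rank
`dim V` and reduction `(red₁, red₂)` preserves ranks. -/
theorem hasOrthoBases (hℓN' : ¬ ℓ ∣ N') (hA : A.LiesOverPrime ℓ) :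
    HasOrthoBases (redDataBar (N' * ℓ) A).A
      (ball2 (redDataBar (N' * ℓ) A) (redData2 (N' * ℓ) A h))
      (rad2 (redDataBar (N' * ℓ) A) (redData2 (N' * ℓ) A h)) := by
  have := Fermat.Agent.GJ.J1.Val.finiteDimensional_jF (N' * ℓ)
  refine hasOrthoBases2 (redCompat N' ℓ A h) (Rw1_ne_Rw2 (N' * ℓ) A h hA)
    (isGaussChart_jF_1 (N' * ℓ) A) (isGaussChart_jF_2 (N' * ℓ) A h) ?_
  exact (degrees N' ℓ A h hℓN' hA _ _).2.2.2.ge

end Fermat.Agent.GK.Val.TwoVal
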