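/-
GATE-K / N1-GAL-w1 (helper45): Galois compatibility of the Gauss valuation `w₁`.

Generic (`A` a valuation subring of `L`, `F ≤ L((q))` with the Gauss fraction property, `σ` in the
decomposition group of `A`, `F` stable under the coefficientwise action of `σ`, `φ : k → k` the
automorphism of the residue field induced by `σ`):

* `gal_mem_Rw`          : `x ∈ Rw ⟹ σ x ∈ Rw`;
* `redL_gal`            : `redL (σ x) = φ (redL x)` (coefficientwise);
* `redL_gal_of_inertia` : `σ` in the inertia group ⟹ `redL (σ x) = redL x`.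

Concrete (`F = ℚ̄(X₀(N))`, every level `N`):

* `arith_mem_RwBar`, `redL_arith`, `redL_arith_of_inertia` for `arithmeticRingAut`;
* `exists_const_mul_unit` : every `u ∈ F_Nˣ` is a constant times a `w₁`-unit;
* `inertia_quot` : `u` a `w₁`-unit, `σ ∈ I(A)` ⟹ `σ u / u` is a `w₁`-unit with reduction `1`
  (the `w₁` half of `SSPackage.norm`).
-/
import Fermat.Agent.GJ.J1.Val.GaussRedData
import Fermat.Agent.GJ.Kum.ESKummer

set_option autoImplicit false

noncomputable section

namespace Fermat.Agent.GK.Val.Inertia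

open HahnSeries ModularCurve IsLocalRing
open Fermat.Agent.GJ.J1.Val Fermat.Agent.GJ.Kum

section Generic

variable {K L : Type*} [Field K] [Field L] [Algebra K L] (A : ValuationSubring L)
  (F : IntermediateField L (LaurentSeries L)) (hGF : HasGaussFrac A F)
  (σ : L ≃ₐ[K] L) (hσ : σ ∈ A.decompositionSubgroup K)
  (hF : ∀ x ∈ F, coeffMap (σ : L →+* L) x ∈ F)
  (φ : ResidueField A →+* ResidueField A)
  (hφ : ∀ a : A, φ (residue A a) = residue A (resA A σ hσ a))

include hφ in
theorem rd_resA (a : LaurentSeries A) :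
    rd A (coeffMap (resA A σ hσ) a) = coeffMap φ (rd A a) := by
  ext n
  simp only [rd, coeffMap_coeff]
  exact (hφ _).symm

theorem coeffMap_injective_of_injective {R S : Type*} [CommRing R] [CommRing S] (f : R →+* S)
    (hf : Function.Injective f) : Function.Injective (coeffMap f) := by
  intro x y h
  ext n
  have := congrArg (fun z : LaurentSeries S => z.coeff n) h
  simp only [coeffMap_coeff] at this
  exact hf this

variable {A F}

include hF hφ in
/-- the Gauss fraction presentation is transported by `σ` -/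
theorem isFrac_gal {x : LaurentSeries L} {a b : LaurentSeries A} (h : IsFrac A F x a b) :
    IsFrac A F (coeffMap (σ : L →+* L) x) (coeffMap (resA A σ hσ) a)
      (coeffMap (resA A σ hσ) b) := by
  obtain ⟨ha, hb, hb0, hx⟩ := h
  refine ⟨?_, ?_, ?_, ?_⟩
  · rw [emb, coeffMap_subtype_resA]; exact hF _ ha
  · rw [emb, coeffMap_subtype_resA]; exact hF _ hb
  · rw [rd_resA A σ hσ φ hφ]
    intro h0
    apply hb0
    apply coeffMap_injective_of_injective φ φ.injective
    rw [h0, map_zero]
  · rw [emb, coeffMap_subtype_resA, coeffMap_subtype_resA, ← map_mul]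
    exact congrArg _ hx

variable (A)

omit hGF hF φ hφ F in
/-- the restriction of `σ ∈ D(A)` to `A` is a local homomorphism -/
theorem isLocalHom_resA : IsLocalHom (resA A σ hσ) := by
  refine ⟨fun a ha => ?_⟩
  obtain ⟨b, hb⟩ := isUnit_iff_exists_inv.1 ha
  refine isUnit_iff_exists_inv.2 ⟨resA A σ⁻¹ (inv_mem hσ) b, ?_⟩
  apply Subtype.ext
  have h1 := congrArg (fun z : A => σ⁻¹ (z : L)) hb
  simp only [MulMemClass.coe_mul, coe_resA, map_mul, OneMemClass.coe_one, map_one] at h1
  have h2 : σ⁻¹ (σ (a : L)) = (a : L) := σ.symm_apply_apply _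
  rw [h2] at h1
  simpa [coe_resA] using h1

/-- the automorphism of the residue field induced by `σ ∈ D(A)` -/
def resK : ResidueField A →+* ResidueField A :=
  haveI := isLocalHom_resA A σ hσ
  ResidueField.map (resA A σ hσ)

omit hGF hF φ hφ F in
theorem resK_residue (a : A) : resK A σ hσ (residue A a) = residue A (resA A σ hσ a) := rfl

variable (F)

include hF hφ in
/-- **the decomposition group preserves the Gauss valuation ring** (any `φ`) -/
theorem gal_mem_Rw' (x : F) (hx : x ∈ Rw A F hGF) :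
    (⟨coeffMap (σ : L →+* L) (x : LaurentSeries L), hF _ x.2⟩ : F) ∈ Rw A F hGF := by
  obtain ⟨a, b, h⟩ := hx
  exact ⟨_, _, isFrac_gal σ hσ hF φ hφ h⟩

omit φ hφ in
include hσ hF in
/-- **the decomposition group preserves the Gauss valuation ring** -/
theorem gal_mem_Rw (x : F) (hx : x ∈ Rw A F hGF) :
    (⟨coeffMap (σ : L →+* L) (x : LaurentSeries L), hF _ x.2⟩ : F) ∈ Rw A F hGF :=
  gal_mem_Rw' A F hGF σ hσ hF (resK A σ hσ) (resK_residue A σ hσ) x hx

include hφ in
/-- **`redL (σ x) = φ (redL x)`** for `σ ∈ D(A)` inducing `φ` on the residue field -/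
theorem redL_gal (x : Rw A F hGF) :
    redL A F hGF ⟨⟨coeffMap (σ : L →+* L) ((x : F) : LaurentSeries L), hF _ (x : F).2⟩,
        gal_mem_Rw A F hGF σ hσ hF x x.2⟩ = coeffMap φ (redL A F hGF x) := by
  obtain ⟨a, b, h⟩ := x.2
  have h' := isFrac_gal σ hσ hF φ hφ h
  have e1 := redL_eq (hGF := hGF) (x := ⟨⟨coeffMap (σ : L →+* L) ((x : F) : LaurentSeries L),
    hF _ (x : F).2⟩, gal_mem_Rw A F hGF σ hσ hF x x.2⟩) h'
  rw [e1, redL_eq h, rd_resA A σ hσ φ hφ, rd_resA A σ hσ φ hφ, map_div₀]

end Generic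

section Inertia

variable {K L : Type*} [Field K] [Field L] [Algebra K L] (A : ValuationSubring L)
  (F : IntermediateField L (LaurentSeries L)) (hGF : HasGaussFrac A F)
  (σ : L ≃ₐ[K] L) (hσ : σ ∈ A.inertiaSubgroupIn K)
  (hF : ∀ x ∈ F, coeffMap (σ : L →+* L) x ∈ F)

include hσ in
/-- **inertia acts trivially on the reduction** -/
theorem redL_gal_of_inertia (x : Rw A F hGF) :
    redL A F hGF ⟨⟨coeffMap (σ : L →+* L) ((x : F) : LaurentSeries L), hF _ (x : F).2⟩,
        gal_mem_Rw A F hGF σ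
          (Fermat.Agent.S05.mem_decompositionSubgroup_of_mem_inertiaSubgroupIn hσ) hF x x.2⟩ =
      redL A F hGF x := by
  rw [redL_gal A F hGF σ _ hF (RingHom.id _)
    (fun a => (residue_resA_of_inertia A hσ a).symm) x, coeffMap_id]

end Inertia

/-! ### the modular function field `ℚ̄(X₀(N))`, every level `N` -/

section Modular

variable (N : ℕ) [NeZero N] (A : ValuationSubring (AlgebraicClosure ℚ))
  (σ : AlgebraicClosure ℚ ≃ₐ[ℚ] AlgebraicClosure ℚ)

local notation "Qb" => AlgebraicClosure ℚ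
local notation "FN" => modularFunctionFieldBar N

omit [NeZero N] in
/-- `F_N` is stable under the coefficientwise Galois action -/
theorem stable_bar : ∀ x ∈ modularFunctionFieldBar N,
    coeffMap (σ : Qb →+* Qb) x ∈ modularFunctionFieldBar N :=
  fun _ hx => coeffMap_mem_laurentBaseChange σ hx

/-- **`σ ∈ D(A)` preserves `RwBar N A`** -/
theorem arith_mem_RwBar (hσ : σ ∈ A.decompositionSubgroup ℚ) (x : FN) (hx : x ∈ RwBar N A) :
    arithmeticRingAut (modularFunctionFieldFull N) σ x ∈ RwBar N A :=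
  gal_mem_Rw A (modularFunctionFieldBar N) (hasGaussFrac_bar N A) σ hσ (stable_bar N σ) x hx

/-- `x ∈ RwBar N A ⟺ σ x ∈ RwBar N A` for `σ ∈ D(A)` -/
theorem arith_mem_RwBar_iff (hσ : σ ∈ A.decompositionSubgroup ℚ) (x : FN) :
    arithmeticRingAut (modularFunctionFieldFull N) σ x ∈ RwBar N A ↔ x ∈ RwBar N A := by
  refine ⟨fun h => ?_, arith_mem_RwBar N A σ hσ x⟩
  have h1 := arith_mem_RwBar N A σ⁻¹ (inv_mem hσ) _ h
  have h2 : arithmeticRingAut (modularFunctionFieldFull N) σ⁻¹
      (arithmeticRingAut (modularFunctionFieldFull N) σ x) = x :=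
    (arithmeticRingAut (modularFunctionFieldFull N) σ).symm_apply_apply x
  rwa [h2] at h1

/-- **`redL (σ x) = φ (redL x)`** for `σ ∈ D(A)` inducing `φ` on the residue field -/
theorem redL_arith (hσ : σ ∈ A.decompositionSubgroup ℚ)
    (φ : ResidueField A →+* ResidueField A)
    (hφ : ∀ a : A, φ (residue A a) = residue A (resA A σ hσ a)) (x : RwBar N A) :
    redL A (modularFunctionFieldBar N) (hasGaussFrac_bar N A)
        ⟨arithmeticRingAut (modularFunctionFieldFull N) σ x, arith_mem_RwBar N A σ hσ x x.2⟩ =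
      coeffMap φ (redL A (modularFunctionFieldBar N) (hasGaussFrac_bar N A) x) :=
  redL_gal A (modularFunctionFieldBar N) (hasGaussFrac_bar N A) σ hσ (stable_bar N σ) φ hφ x

/-- **inertia acts trivially on the reduction `red₁`** -/
theorem redL_arith_of_inertia (hσ : σ ∈ A.inertiaSubgroupIn ℚ) (x : RwBar N A) :
    redL A (modularFunctionFieldBar N) (hasGaussFrac_bar N A)
        ⟨arithmeticRingAut (modularFunctionFieldFull N) σ x, arith_mem_RwBar N A σ
          (Fermat.Agent.S05.mem_decompositionSubgroup_of_mem_inertiaSubgroupIn hσ) x x.2⟩ =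
      redL A (modularFunctionFieldBar N) (hasGaussFrac_bar N A) x :=
  redL_gal_of_inertia A (modularFunctionFieldBar N) (hasGaussFrac_bar N A) σ hσ
    (stable_bar N σ) x

/-- `RedData` form: inertia acts trivially on `red` -/
theorem red_arith_of_inertia (hσ : σ ∈ A.inertiaSubgroupIn ℚ) (x : FN)
    (hx : x ∈ (redDataBar N A).Rw)
    (hx' : arithmeticRingAut (modularFunctionFieldFull N) σ x ∈ (redDataBar N A).Rw) :
    (redDataBar N A).red ⟨arithmeticRingAut (modularFunctionFieldFull N) σ x, hx'⟩ =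
      (redDataBar N A).red ⟨x, hx⟩ :=
  Subtype.ext (redL_arith_of_inertia N A σ hσ ⟨x, hx⟩)

/-- **every nonzero function is a constant times a `w₁`-unit** -/
theorem exists_const_mul_unit (u : FN) (hu : u ≠ 0) :
    ∃ c : Qb, c ≠ 0 ∧ algebraMap Qb FN c * u ∈ RwBar N A ∧
      (algebraMap Qb FN c * u)⁻¹ ∈ RwBar N A := by
  obtain ⟨c, hc, h1, h2⟩ := unramified A (modularFunctionFieldBar N) (hasGaussFrac_bar N A) u hu
  refine ⟨c⁻¹, inv_ne_zero hc, ?_, ?_⟩
  · rwa [map_inv₀, inv_mul_eq_div]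
  · rwa [map_inv₀, inv_mul_eq_div]

/-- **the `w₁` half of `SSPackage.norm`**: for a `w₁`-unit `u` and `σ ∈ I(A)`, the quotient
`σ u / u` is a `w₁`-unit with reduction `1`. -/
theorem inertia_quot (hσ : σ ∈ A.inertiaSubgroupIn ℚ) (u : FN) (hu : u ∈ RwBar N A)
    (hu' : u⁻¹ ∈ RwBar N A) (hu0 : u ≠ 0) :
    ∃ h : arithmeticRingAut (modularFunctionFieldFull N) σ u / u ∈ RwBar N A,
      (arithmeticRingAut (modularFunctionFieldFull N) σ u / u)⁻¹ ∈ RwBar N A ∧
      redL A (modularFunctionFieldBar N) (hasGaussFrac_bar N A)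
        ⟨arithmeticRingAut (modularFunctionFieldFull N) σ u / u, h⟩ = 1 := by
  have hdec := Fermat.Agent.S05.mem_decompositionSubgroup_of_mem_inertiaSubgroupIn hσ
  have h1 := arith_mem_RwBar N A σ hdec u hu
  have h1' := arith_mem_RwBar N A σ hdec u⁻¹ hu'
  rw [map_inv₀] at h1'
  have hq : arithmeticRingAut (modularFunctionFieldFull N) σ u / u ∈ RwBar N A := by
    rw [div_eq_mul_inv]; exact mul_mem h1 hu'
  refine ⟨hq, ?_, ?_⟩
  · rw [inv_div, div_eq_mul_inv]; exact mul_mem hu h1'
  · have e : (⟨arithmeticRingAut (modularFunctionFieldFull N) σ u / u, hq⟩ : RwBar N A) =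
        ⟨arithmeticRingAut (modularFunctionFieldFull N) σ u, h1⟩ * ⟨u⁻¹, hu'⟩ :=
      Subtype.ext (div_eq_mul_inv _ _)
    rw [e, map_mul, redL_arith_of_inertia N A σ hσ ⟨u, hu⟩, ← map_mul]
    have e2 : (⟨u, hu⟩ : RwBar N A) * ⟨u⁻¹, hu'⟩ = 1 :=
      Subtype.ext (mul_inv_cancel₀ hu0)
    rw [e2, map_one]

end Modular

end Fermat.Agent.GK.Val.Inertia
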