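/-
GATE-L PREP (helper45): the Gauss valuation over a base with PRINCIPAL maximal ideal / a DVR base.

`A ⊂ L` a valuation subring, `F ≤ L((q))` with Gauss fractions, `Rw = Rw A F hGF` the Gauss valuation
ring of `F` (`GJ/J1/Val/GaussRedData`).  `Rw` is UNRAMIFIED over `A` (`Val.unramified`), hence:

* `exists_const_mul_unit` : `x ≠ 0` in `Rw` ⟹ `x = c · u`, `c ∈ A`, `u ∈ Rwˣ`;
* `const_mem_nonunits_iff` : a constant is a nonunit of `Rw` iff it is a nonunit of `A`;
* `exists_eq_mul_of_nonunit` : if every nonunit of `A` is divisible by `ϖ`, every nonunit of `Rw`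
  is divisible by `ϖ` (`𝔪_{Rw} = ϖ · Rw`, "`e = 1`");
* `maximalIdeal_Rw_eq_span`;
* `isDiscreteValuationRing_Rw` : `A` a DVR ⟹ `Rw` a DVR, with the same uniformiser.
-/
import Fermat.Agent.GJ.J1.Val.GaussRedData

set_option autoImplicit false

noncomputable section

namespace Fermat.Agent.GK.Val.GaussDvr

open HahnSeries ModularCurve IsLocalRing
open Fermat.Agent.GJ.J1 Fermat.Agent.GJ.J1.Val

variable {L : Type*} [Field L] (A : ValuationSubring L)
  (F : IntermediateField L (LaurentSeries L)) (hGF : HasGaussFrac A F)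

/-- a constant of `A`, as an element of the Gauss valuation ring -/
def const (c : A) : Rw A F hGF :=
  ⟨algebraMap L F (c : L), (algebraMap_mem_Rw_iff (hGF := hGF) (c : L)).2 c.2⟩

@[simp]
theorem coe_const (c : A) : ((const A F hGF c : Rw A F hGF) : F) = algebraMap L F (c : L) := rfl

/-- the constants, as a ring homomorphism `A →+* Rw` -/
def constHom : A →+* Rw A F hGF where
  toFun := const A F hGF
  map_one' := by ext1; simp
  map_mul' x y := by ext1; simp
  map_zero' := by ext1; simp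
  map_add' x y := by ext1; simp

@[simp]
theorem constHom_apply (c : A) : constHom A F hGF c = const A F hGF c := rfl

theorem const_injective : Function.Injective (const A F hGF) := by
  intro x y h
  have h1 := congrArg (fun z : Rw A F hGF => (z : F)) h
  simp only [coe_const] at h1
  exact Subtype.ext ((algebraMap L F).injective h1)

theorem isUnit_const {c : A} (hc : IsUnit c) : IsUnit (const A F hGF c) :=
  hc.map (constHom A F hGF)

/-- **unramifiedness**: every nonzero element of `Rw` is a constant of `A` times a unit of `Rw` -/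
theorem exists_const_mul_unit (x : Rw A F hGF) (hx : x ≠ 0) :
    ∃ (c : A) (u : Rw A F hGF), c ≠ 0 ∧ IsUnit u ∧ x = const A F hGF c * u := by
  have hxF : (x : F) ≠ 0 := fun h => hx (Subtype.ext h)
  obtain ⟨c, hc0, hu, hui⟩ := unramified A F hGF (x : F) hxF
  have hC0 : algebraMap L F c ≠ 0 := by
    rw [Ne, map_eq_zero]; exact hc0
  have hu0 : (x : F) / algebraMap L F c ≠ 0 := div_ne_zero hxF hC0
  -- `C c = x * u⁻¹ ∈ Rw`
  have hcRw : algebraMap L F c ∈ Rw A F hGF := by
    have : algebraMap L F c = (x : F) * ((x : F) / algebraMap L F c)⁻¹ := by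
      rw [inv_div, mul_div_assoc', mul_comm, mul_div_assoc, div_self hxF, mul_one]
    rw [this]
    exact (Rw A F hGF).mul_mem _ _ x.2 hui
  have hcA : c ∈ A := (algebraMap_mem_Rw_iff (hGF := hGF) c).1 hcRw
  refine ⟨⟨c, hcA⟩, ⟨_, hu⟩, ?_, ?_, ?_⟩
  · intro h0
    exact hc0 (congrArg (fun z : A => (z : L)) h0)
  · refine IsUnit.of_mul_eq_one (⟨_, hui⟩ : Rw A F hGF) ?_
    ext1
    show (x : F) / algebraMap L F c * ((x : F) / algebraMap L F c)⁻¹ = 1
    exact mul_inv_cancel₀ hu0
  · ext1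
    show (x : F) = algebraMap L F c * ((x : F) / algebraMap L F c)
    rw [mul_div_cancel₀ _ hC0]

/-- a constant is a unit of `Rw` iff it is a unit of `A` -/
theorem isUnit_const_iff (c : A) : IsUnit (const A F hGF c) ↔ IsUnit c := by
  refine ⟨fun h => ?_, isUnit_const A F hGF⟩
  obtain ⟨v, hv⟩ := h.exists_right_inv
  have hv' : algebraMap L F (c : L) * (v : F) = 1 := congrArg (fun z : Rw A F hGF => (z : F)) hv
  have hc0 : (c : L) ≠ 0 := by
    intro h0
    rw [h0, map_zero, zero_mul] at hv'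
    exact zero_ne_one hv'
  have hvc : (v : F) = algebraMap L F ((c : L)⁻¹) := by
    rw [map_inv₀]
    exact (inv_eq_of_mul_eq_one_right hv').symm
  have hmem : (c : L)⁻¹ ∈ A := by
    rw [← algebraMap_mem_Rw_iff (hGF := hGF), ← hvc]
    exact v.2
  refine IsUnit.of_mul_eq_one ⟨(c : L)⁻¹, hmem⟩ ?_
  ext
  show (c : L) * (c : L)⁻¹ = 1
  exact mul_inv_cancel₀ hc0

/-- **`𝔪_{Rw} = ϖ · Rw`** when `𝔪_A = ϖ · A` -/
theorem exists_eq_mul_of_nonunit (ϖ : A) (hϖ : ∀ a : A, ¬ IsUnit a → ∃ b : A, a = ϖ * b)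
    (x : Rw A F hGF) (hx : ¬ IsUnit x) : ∃ y : Rw A F hGF, x = const A F hGF ϖ * y := by
  by_cases hx0 : x = 0
  · exact ⟨0, by rw [hx0, mul_zero]⟩
  obtain ⟨c, u, -, hu, rfl⟩ := exists_const_mul_unit A F hGF x hx0
  have hc : ¬ IsUnit c := fun h => hx ((isUnit_const A F hGF h).mul hu)
  obtain ⟨b, rfl⟩ := hϖ c hc
  refine ⟨const A F hGF b * u, ?_⟩
  rw [← mul_assoc]
  congr 1
  exact map_mul (constHom A F hGF) ϖ b

theorem maximalIdeal_Rw_eq_span (ϖ : A) (hϖ0 : ¬ IsUnit ϖ)
    (hϖ : ∀ a : A, ¬ IsUnit a → ∃ b : A, a = ϖ * b) :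
    maximalIdeal (Rw A F hGF) = Ideal.span {const A F hGF ϖ} := by
  ext x
  rw [mem_maximalIdeal, mem_nonunits_iff, Ideal.mem_span_singleton']
  constructor
  · intro hx
    obtain ⟨y, rfl⟩ := exists_eq_mul_of_nonunit A F hGF ϖ hϖ x hx
    exact ⟨y, mul_comm _ _⟩
  · rintro ⟨y, rfl⟩ hu
    have := isUnit_of_mul_isUnit_right hu
    exact hϖ0 ((isUnit_const_iff A F hGF ϖ).1 this)

/-- **the Gauss valuation ring over a DVR is a DVR** (with the same uniformiser) -/
theorem isDiscreteValuationRing_Rw [IsDiscreteValuationRing A] :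
    IsDiscreteValuationRing (Rw A F hGF) := by
  obtain ⟨ϖ, hirr⟩ := IsDiscreteValuationRing.exists_irreducible A
  apply IsDiscreteValuationRing.ofHasUnitMulPowIrreducibleFactorization
  refine ⟨const A F hGF ϖ, ?_, ?_⟩
  · -- irreducible
    have hnu : ¬ IsUnit (const A F hGF ϖ) := fun h =>
      hirr.not_isUnit ((isUnit_const_iff A F hGF ϖ).1 h)
    refine ⟨hnu, ?_⟩
    intro a b hab
    by_contra hcon
    rw [not_or] at hcon
    obtain ⟨ha, hb⟩ := hcon
    have hdiv : ∀ c : A, ¬ IsUnit c → ∃ d : A, c = ϖ * d := by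
      intro c hc
      have hcm : c ∈ maximalIdeal A := (mem_maximalIdeal c).2 hc
      rw [hirr.maximalIdeal_eq, Ideal.mem_span_singleton'] at hcm
      obtain ⟨d, rfl⟩ := hcm
      exact ⟨d, mul_comm _ _⟩
    obtain ⟨a', rfl⟩ := exists_eq_mul_of_nonunit A F hGF ϖ hdiv a ha
    obtain ⟨b', rfl⟩ := exists_eq_mul_of_nonunit A F hGF ϖ hdiv b hb
    have hϖ0 : const A F hGF ϖ ≠ 0 := by
      intro h0
      have : ϖ = 0 := const_injective A F hGF (by rw [h0]; ext1; simp)
      exact hirr.ne_zero this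
    have h1 : const A F hGF ϖ * 1 = const A F hGF ϖ * (a' * const A F hGF ϖ * b') := by
      rw [mul_one]
      calc const A F hGF ϖ = const A F hGF ϖ * a' * (const A F hGF ϖ * b') := hab
        _ = _ := by ring
    have h2 := mul_left_cancel₀ hϖ0 h1
    have h3 : IsUnit (const A F hGF ϖ) := by
      refine IsUnit.of_mul_eq_one (a' * b') ?_
      rw [h2]; ring
    exact hnu h3
  · intro x hx
    obtain ⟨c, u, hc0, hu, rfl⟩ := exists_const_mul_unit A F hGF x hx
    obtain ⟨n, v, hv⟩ := IsDiscreteValuationRing.eq_unit_mul_pow_irreducible hc0 hirr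
    refine ⟨n, ?_⟩
    have hvu : IsUnit (const A F hGF (v : A)) := isUnit_const A F hGF v.isUnit
    refine ⟨(hvu.mul hu).unit, ?_⟩
    show const A F hGF ϖ ^ n * (const A F hGF (v : A) * u) = const A F hGF c * u
    rw [hv, ← mul_assoc]
    congr 1
    ext1
    simp [mul_comm]

end Fermat.Agent.GK.Val.GaussDvr
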